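import Mathlib

/-!
# Route A, [SI] second inequality: definitions (F^×-language)

`F` a number field, `ζ ∈ F` a primitive `p`-th root of unity, `v` a finite prime of `F`
(`v : HeightOneSpectrum (𝓞 F)`), valuations written multiplicatively (`v.valuation F`).

* `Ucong F v c` : the units `u` of `F` with `v(u - 1) < c` and `v(u - 1) < 1`
  (the whole group in the degenerate case `c = 0`);
* `Lv F p ζ v = F^×p · Ucong F v (v(1 - ζ) ^ p)` : the elements of `F^×` that are "locally a
  `p`-th power at `v`" to the precision needed for `F(x^(1/p))` to split at `v`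
  (for `v ∤ p` the precision is `u ≡ 1 mod v`);
* `ClGen F S` : every prime outside `S` is principal up to `S` (`𝓞_{F,S}` is a PID, elementary form).
-/

set_option autoImplicit false

namespace Fermat.Agent.S14.Artin.SI

open NumberField IsDedekindDomain HeightOneSpectrum

variable (F : Type*) [Field F] [NumberField F]

/-- Congruence units at `v`: `v(u - 1) < c` and `v(u - 1) < 1` (everything if `c = 0`). -/
def Ucong (v : HeightOneSpectrum (𝓞 F)) (c : WithZero (Multiplicative ℤ)) : Subgroup Fˣ where
  carrier := {u | v.valuation F ((u : F) - 1) < c ⊓ 1 ∨ c = 0}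
  one_mem' := by
    by_cases hc : c = 0
    · exact Or.inr hc
    · left
      simp only [Units.val_one, sub_self, map_zero]
      exact lt_inf_iff.mpr ⟨zero_lt_iff.mpr hc, zero_lt_one⟩
  mul_mem' := by
    intro a b ha hb
    rcases ha with ha | ha
    · rcases hb with hb | hb
      · left
        have ha1 : v.valuation F ((a : F) - 1) < 1 := lt_of_lt_of_le ha inf_le_right
        have hva : v.valuation F (a : F) = 1 := by
          have h := Valuation.map_add_eq_of_lt_left (v.valuation F) (x := (1 : F))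
            (y := (a : F) - 1) (by rwa [map_one])
          rw [map_one] at h
          rw [← h]
          congr 1
          ring
        have e : ((a * b : Fˣ) : F) - 1 = (a : F) * ((b : F) - 1) + ((a : F) - 1) := by
          push_cast
          ring
        rw [e]
        refine lt_of_le_of_lt (Valuation.map_add _ _ _) (max_lt ?_ ha)
        rw [map_mul, hva, one_mul]
        exact hb
      · exact Or.inr hb
    · exact Or.inr ha
  inv_mem' := by
    intro a ha
    rcases ha with ha | ha
    · left
      have ha1 : v.valuation F ((a : F) - 1) < 1 := lt_of_lt_of_le ha inf_le_right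
      have hva : v.valuation F (a : F) = 1 := by
        have h := Valuation.map_add_eq_of_lt_left (v.valuation F) (x := (1 : F))
          (y := (a : F) - 1) (by rwa [map_one])
        rw [map_one] at h
        rw [← h]
        congr 1
        ring
      have e : ((a⁻¹ : Fˣ) : F) - 1 = -(((a : F) - 1) * ((a⁻¹ : Fˣ) : F)) := by
        have : (a : F) * ((a⁻¹ : Fˣ) : F) = 1 := by
          rw [← Units.val_mul, mul_inv_cancel, Units.val_one]
        linear_combination this
      rw [e, Valuation.map_neg, map_mul]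
      have : v.valuation F ((a⁻¹ : Fˣ) : F) = 1 := by
        rw [Units.val_inv_eq_inv_val, map_inv₀, hva, inv_one]
      rw [this, mul_one]
      exact ha
    · exact Or.inr ha

variable {F}

theorem mem_Ucong {v : HeightOneSpectrum (𝓞 F)} {c : WithZero (Multiplicative ℤ)} (hc : c ≠ 0)
    (hc1 : c ≤ 1) (u : Fˣ) : u ∈ Ucong F v c ↔ v.valuation F ((u : F) - 1) < c := by
  change (v.valuation F ((u : F) - 1) < c ⊓ 1 ∨ c = 0) ↔ _
  rw [inf_eq_left.mpr hc1]
  exact ⟨fun h => h.resolve_right hc, Or.inl⟩

theorem valuation_eq_one_of_sub_one_lt {v : HeightOneSpectrum (𝓞 F)} {u : F}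
    (h : v.valuation F (u - 1) < 1) : v.valuation F u = 1 := by
  have h' := Valuation.map_add_eq_of_lt_left (v.valuation F) (x := (1 : F))
    (y := u - 1) (by rwa [map_one])
  rw [map_one] at h'
  rw [← h']
  congr 1
  ring

variable (F)

/-- `L_v = F^×p · U_v^(> p·v(1-ζ))`: local `p`-th powers at `v`, to splitting precision. -/
noncomputable def Lv (p : ℕ) (ζ : F) (v : HeightOneSpectrum (𝓞 F)) : Subgroup Fˣ :=
  (powMonoidHom p : Fˣ →* Fˣ).range ⊔ Ucong F v (v.valuation F (1 - ζ) ^ p)

/-- `𝓞_{F,S}` is a PID, in elementary form: every prime outside `S` is principal up to `S`. -/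
def ClGen (S : Finset (HeightOneSpectrum (𝓞 F))) : Prop :=
  ∀ v ∉ S, ∃ x : Fˣ, v.valuation F (x : F) = WithZero.exp (-1 : ℤ) ∧
    ∀ w ∉ S, w ≠ v → w.valuation F (x : F) = 1

variable {F}

theorem pow_mem_Lv (p : ℕ) (ζ : F) (v : HeightOneSpectrum (𝓞 F)) (y : Fˣ) :
    y ^ p ∈ Lv F p ζ v :=
  Subgroup.mem_sup_left ⟨y, rfl⟩

theorem mem_Lv_iff (p : ℕ) (ζ : F) (v : HeightOneSpectrum (𝓞 F)) (x : Fˣ) :
    x ∈ Lv F p ζ v ↔ ∃ y u : Fˣ, u ∈ Ucong F v (v.valuation F (1 - ζ) ^ p) ∧ x = y ^ p * u := by
  unfold Lv
  rw [Subgroup.mem_sup]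
  constructor
  · rintro ⟨_, ⟨y, rfl⟩, u, hu, rfl⟩
    exact ⟨y, u, hu, rfl⟩
  · rintro ⟨y, u, hu, rfl⟩
    exact ⟨_, ⟨y, rfl⟩, u, hu, rfl⟩

end Fermat.Agent.S14.Artin.SI
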