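import Fermat.Agent.S14.Artin.SI.Defs

/-!
# Route A, [SI]: local residue lemmas at a prime `w ∤ p`

`F ∋ ζ_p` a number field, `w` a finite prime with `p ∉ w`.  Then `v(1 - ζ) = 1`, a `w`-unit `x`
lies in `L_w` iff it is a `p`-th power residue mod `w`, and the `w`-units modulo `L_w` form a
cyclic group of order dividing `p` (in the elementwise form `exists_pow_mul_mem_Lv`).
-/

set_option autoImplicit false

namespace Fermat.Agent.S14.Artin.SI

open NumberField IsDedekindDomain HeightOneSpectrum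

section Group

/-- In a cyclic group, if `β` is not a `p`-th power then every `γ` is `β ^ (-i)` times a
`p`-th power for some `i < p`. -/
theorem exists_pow_mul_eq_pow {C : Type*} [CommGroup C] [IsCyclic C] (p : ℕ) [hp : Fact p.Prime]
    (β γ : C) (hβ : ∀ c : C, c ^ p ≠ β) : ∃ i : ℕ, i < p ∧ ∃ c : C, γ * β ^ i = c ^ p := by
  obtain ⟨g, hg⟩ := IsCyclic.exists_generator (α := C)
  obtain ⟨m, rfl⟩ := Subgroup.mem_zpowers_iff.mp (hg β)
  obtain ⟨n, rfl⟩ := Subgroup.mem_zpowers_iff.mp (hg γ)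
  have hm : ¬ (p : ℤ) ∣ m := by
    rintro ⟨k, rfl⟩
    refine hβ (g ^ k) ?_
    rw [← zpow_natCast, ← zpow_mul, mul_comm]
  have hm' : (m : ZMod p) ≠ 0 := by
    rwa [Ne, ZMod.intCast_zmod_eq_zero_iff_dvd]
  refine ⟨((-(n : ZMod p)) * (m : ZMod p)⁻¹).val, ZMod.val_lt _, ?_⟩
  have hdvd : (p : ℤ) ∣ n + ((-(n : ZMod p)) * (m : ZMod p)⁻¹).val * m := by
    rw [← ZMod.intCast_zmod_eq_zero_iff_dvd]
    push_cast
    rw [ZMod.natCast_val, ZMod.cast_id', id, mul_assoc, inv_mul_cancel₀ hm', mul_one]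
    ring
  obtain ⟨k, hk⟩ := hdvd
  refine ⟨g ^ k, ?_⟩
  rw [← zpow_natCast (g ^ m), ← zpow_mul, ← zpow_add, ← zpow_natCast (g ^ k), ← zpow_mul]
  congr 1
  rw [mul_comm m, hk, mul_comm]

/-- If the cosets `g ^ (-i) H`, `i < p`, cover `K`, then `[K : H ⊓ K] ≤ p`. -/
theorem relIndex_le_of_cover {G : Type*} [CommGroup G] (H K : Subgroup G) (g : G) (hg : g ∈ K)
    (p : ℕ) (hp : 0 < p) (h : ∀ y ∈ K, ∃ i : ℕ, i < p ∧ y * g ^ i ∈ H) :
    H.relIndex K ≤ p ∧ H.relIndex K ≠ 0 := by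
  have : NeZero p := ⟨hp.ne'⟩
  let f : Fin p → K ⧸ H.subgroupOf K := fun i => QuotientGroup.mk ((⟨g, hg⟩ : K)⁻¹ ^ (i : ℕ))
  have hf : Function.Surjective f := by
    intro q
    induction q using QuotientGroup.induction_on with
    | H y =>
      obtain ⟨i, hi, hy⟩ := h y y.2
      refine ⟨⟨i, hi⟩, ?_⟩
      change QuotientGroup.mk _ = QuotientGroup.mk _
      rw [QuotientGroup.eq]
      rw [Subgroup.mem_subgroupOf]
      have : ((((⟨g, hg⟩ : K)⁻¹ ^ i)⁻¹ * y : K) : G) = (y : G) * g ^ i := by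
        push_cast
        rw [inv_pow, inv_inv, mul_comm]
      rw [this]
      exact hy
  have hfin : Finite (K ⧸ H.subgroupOf K) := Finite.of_surjective f hf
  refine ⟨?_, ?_⟩
  · have := Nat.card_le_card_of_surjective f hf
    rwa [Nat.card_fin] at this
  · exact Nat.card_pos.ne'

end Group

variable {F : Type*} [Field F] [NumberField F]

theorem exists_int_sub_lt (w : HeightOneSpectrum (𝓞 F)) {x : F} (hx : w.valuation F x ≤ 1) :
    ∃ c : 𝓞 F, w.valuation F (x - (c : F)) < 1 := by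
  obtain ⟨a, ha⟩ := exists_valuation_sub_lt_of_integer w hx 1
  refine ⟨a, ?_⟩
  rw [Valuation.map_sub_swap]
  simpa using ha

theorem valuation_pow_eq_one {w : HeightOneSpectrum (𝓞 F)} {x : F} {n : ℕ} (hn : n ≠ 0)
    (h : w.valuation F x ^ n = 1) : w.valuation F x = 1 :=
  (pow_eq_one_iff_left hn).mp h

variable {p : ℕ} [hp : Fact p.Prime] {ζ : F}

theorem zeta_ne_one (hζ : IsPrimitiveRoot ζ p) : ζ ≠ 1 :=
  hζ.ne_one hp.out.one_lt

theorem valuation_one_sub_zeta_ne_zero (hζ : IsPrimitiveRoot ζ p) (w : HeightOneSpectrum (𝓞 F)) :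
    w.valuation F (1 - ζ) ≠ 0 := by
  rw [Ne, Valuation.zero_iff, sub_eq_zero]
  exact fun h => zeta_ne_one hζ h.symm

theorem valuation_one_sub_zeta_le_one (hζ : IsPrimitiveRoot ζ p) (w : HeightOneSpectrum (𝓞 F)) :
    w.valuation F (1 - ζ) ≤ 1 := by
  have hint : IsIntegral ℤ ζ := hζ.isIntegral hp.out.pos
  have : (1 - ζ) = ((1 - ⟨ζ, hint⟩ : 𝓞 F) : F) := rfl
  rw [this]
  exact valuation_le_one w _

/-- At a prime not above `p`, `1 - ζ` is a unit. -/
theorem valuation_one_sub_zeta (hζ : IsPrimitiveRoot ζ p) (w : HeightOneSpectrum (𝓞 F))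
    (hpw : (p : 𝓞 F) ∉ w.asIdeal) : w.valuation F (1 - ζ) = 1 := by
  have hint : IsIntegral ℤ ζ := hζ.isIntegral hp.out.pos
  set ζ' : 𝓞 F := ⟨ζ, hint⟩ with hζ'
  have hζ'p : IsPrimitiveRoot ζ' p := by
    have : IsPrimitiveRoot ((algebraMap (𝓞 F) F) ζ') p := hζ
    exact IsPrimitiveRoot.of_map_of_injective this (FaithfulSMul.algebraMap_injective (𝓞 F) F)
  have : (1 - ζ) = ((1 - ζ' : 𝓞 F) : F) := rfl
  rw [this, valuation_eq_one_iff_notMem]
  intro hmem
  apply hpw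
  obtain ⟨n, hn⟩ : ∃ n, p = n + 1 := ⟨p - 1, (Nat.succ_pred_eq_of_pos hp.out.pos).symm⟩
  have hprod := IsPrimitiveRoot.prod_one_sub_pow_eq_order (hn ▸ hζ'p)
  have hn1 : 1 ≤ n := by
    have := hp.out.two_le
    omega
  have hp' : (p : 𝓞 F) = ∏ k ∈ Finset.range n, (1 - ζ' ^ (k + 1)) := by
    rw [hprod, hn]
    push_cast
    rfl
  rw [hp']
  refine Ideal.mem_of_dvd _ (Finset.dvd_prod_of_mem _ (Finset.mem_range.mpr hn1)) ?_
  simpa using hmem

/-- At a prime `w ∤ p`, a `w`-unit lies in `L_w` iff it is a `p`-th power residue mod `w`. -/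
theorem mem_Lv_iff_of_notMem (hζ : IsPrimitiveRoot ζ p) (w : HeightOneSpectrum (𝓞 F))
    (hpw : (p : 𝓞 F) ∉ w.asIdeal) (x : Fˣ) (hx : w.valuation F (x : F) = 1) :
    x ∈ Lv F p ζ w ↔ ∃ c : 𝓞 F, w.valuation F ((x : F) - (c : F) ^ p) < 1 := by
  have h1 : w.valuation F (1 - ζ) ^ p = 1 := by rw [valuation_one_sub_zeta hζ w hpw, one_pow]
  rw [mem_Lv_iff, h1]
  constructor
  · rintro ⟨y, u, hu, rfl⟩
    rw [mem_Ucong one_ne_zero le_rfl] at hu
    have hu1 : w.valuation F (u : F) = 1 := valuation_eq_one_of_sub_one_lt hu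
    have hy : w.valuation F (y : F) = 1 := by
      apply valuation_pow_eq_one hp.out.ne_zero
      rw [← map_pow]
      have : w.valuation F (((y ^ p * u : Fˣ) : F)) = 1 := hx
      rw [Units.val_mul, map_mul, hu1, mul_one, Units.val_pow_eq_pow_val] at this
      exact this
    obtain ⟨c, hc⟩ := exists_int_sub_lt w hy.le
    refine ⟨c, ?_⟩
    have e : (((y ^ p * u : Fˣ) : F)) - (c : F) ^ p =
        (y : F) ^ p * ((u : F) - 1) + ((y : F) ^ p - (c : F) ^ p) := by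
      push_cast
      ring
    rw [e]
    refine lt_of_le_of_lt (Valuation.map_add _ _ _) (max_lt ?_ ?_)
    · rw [map_mul, map_pow, hy, one_pow, one_mul]
      exact hu
    · have hcv : w.valuation F (c : F) ≤ 1 := valuation_le_one w c
      rw [← geom_sum₂_mul, map_mul]
      have hq1 : w.valuation F (∑ i ∈ Finset.range p, (y : F) ^ i * (c : F) ^ (p - 1 - i)) ≤ 1 := by
        refine Valuation.map_sum_le _ fun i _ => ?_
        rw [map_mul, map_pow, map_pow, hy, one_pow, one_mul]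
        exact pow_le_one₀ zero_le' hcv
      calc _ ≤ 1 * w.valuation F ((y : F) - c) := by gcongr
        _ < 1 := by rw [one_mul]; exact hc
  · rintro ⟨c, hc⟩
    have hcv : w.valuation F ((c : F) ^ p) = 1 := by
      have := Valuation.map_sub_eq_of_lt_left (w.valuation F) (x := (x : F))
        (y := (x : F) - (c : F) ^ p) (by rw [hx]; exact hc)
      rw [sub_sub_cancel, hx] at this
      exact this
    have hc0 : (c : F) ≠ 0 := by
      intro h0
      rw [h0, zero_pow hp.out.ne_zero, map_zero] at hcv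
      exact zero_ne_one hcv
    refine ⟨Units.mk0 (c : F) hc0, x * (Units.mk0 (c : F) hc0 ^ p)⁻¹, ?_, ?_⟩
    · rw [mem_Ucong one_ne_zero le_rfl]
      have e : ((x * (Units.mk0 (c : F) hc0 ^ p)⁻¹ : Fˣ) : F) - 1 =
          ((x : F) - (c : F) ^ p) * ((c : F) ^ p)⁻¹ := by
        rw [Units.val_mul, Units.val_inv_eq_inv_val, Units.val_pow_eq_pow_val, Units.val_mk0,
          sub_mul, mul_inv_cancel₀ (pow_ne_zero _ hc0)]
      rw [e, map_mul, map_inv₀, hcv, inv_one, mul_one]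
      exact hc
    · rw [mul_comm x, ← mul_assoc, mul_inv_cancel, one_mul]

/-- Congruent integral elements have congruent powers. -/
theorem valuation_pow_sub_pow_lt (w : HeightOneSpectrum (𝓞 F)) {x y : F}
    (hx : w.valuation F x ≤ 1) (hy : w.valuation F y ≤ 1) (h : w.valuation F (x - y) < 1)
    (n : ℕ) : w.valuation F (x ^ n - y ^ n) < 1 := by
  rw [← geom_sum₂_mul, map_mul]
  have hq1 : w.valuation F (∑ i ∈ Finset.range n, x ^ i * y ^ (n - 1 - i)) ≤ 1 := by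
    refine Valuation.map_sum_le _ fun i _ => ?_
    rw [map_mul, map_pow, map_pow]
    exact mul_le_one' (pow_le_one₀ zero_le' hx) (pow_le_one₀ zero_le' hy)
  calc _ ≤ 1 * w.valuation F (x - y) := by gcongr
    _ < 1 := by rw [one_mul]; exact h

/-- Congruent integral elements have congruent products. -/
theorem valuation_mul_sub_mul_lt (w : HeightOneSpectrum (𝓞 F)) {x x' y y' : F}
    (hx : w.valuation F x ≤ 1) (hy' : w.valuation F y' ≤ 1)
    (h : w.valuation F (x - x') < 1) (h' : w.valuation F (y - y') < 1) :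
    w.valuation F (x * y - x' * y') < 1 := by
  have e : x * y - x' * y' = x * (y - y') + (x - x') * y' := by ring
  rw [e]
  refine lt_of_le_of_lt (Valuation.map_add _ _ _) (max_lt ?_ ?_)
  · rw [map_mul]
    calc _ ≤ 1 * w.valuation F (y - y') := by gcongr
      _ < 1 := by rw [one_mul]; exact h'
  · rw [map_mul]
    calc _ ≤ w.valuation F (x - x') * 1 := by gcongr
      _ < 1 := by rw [mul_one]; exact h

/-- The `w`-units modulo `L_w` are generated by any non-residue (`w ∤ p`): if `b` is a `w`-unit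
outside `L_w` then every `w`-unit `y` has `y * b ^ i ∈ L_w` for some `i < p`. -/
theorem exists_pow_mul_mem_Lv (hζ : IsPrimitiveRoot ζ p) (w : HeightOneSpectrum (𝓞 F))
    (hpw : (p : 𝓞 F) ∉ w.asIdeal) (b y : Fˣ) (hb : w.valuation F (b : F) = 1)
    (hy : w.valuation F (y : F) = 1) (hbL : b ∉ Lv F p ζ w) :
    ∃ i : ℕ, i < p ∧ y * b ^ i ∈ Lv F p ζ w := by
  obtain ⟨b₀, hb₀⟩ := exists_int_sub_lt w hb.le
  obtain ⟨y₀, hy₀⟩ := exists_int_sub_lt w hy.le
  have hmax := w.isMaximal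
  letI : Field (𝓞 F ⧸ w.asIdeal) := Ideal.Quotient.field w.asIdeal
  have hfin : Finite (𝓞 F ⧸ w.asIdeal) := Ideal.finiteQuotientOfFreeOfNeBot w.asIdeal w.ne_bot
  have hunit : ∀ (z : F) (z₀ : 𝓞 F), w.valuation F z = 1 → w.valuation F (z - (z₀ : F)) < 1 →
      z₀ ∉ w.asIdeal := by
    intro z z₀ hz hzz
    rw [← valuation_eq_one_iff_notMem (K := F)]
    have := Valuation.map_sub_eq_of_lt_left (w.valuation F) (x := z) (y := z - (z₀ : F))
      (by rw [hz]; exact hzz)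
    rw [sub_sub_cancel, hz] at this
    exact this
  have hb₀w : b₀ ∉ w.asIdeal := hunit _ _ hb hb₀
  have hy₀w : y₀ ∉ w.asIdeal := hunit _ _ hy hy₀
  let β : (𝓞 F ⧸ w.asIdeal)ˣ := Units.mk0 (Ideal.Quotient.mk _ b₀)
    (by rwa [Ne, Ideal.Quotient.eq_zero_iff_mem])
  let γ : (𝓞 F ⧸ w.asIdeal)ˣ := Units.mk0 (Ideal.Quotient.mk _ y₀)
    (by rwa [Ne, Ideal.Quotient.eq_zero_iff_mem])
  have hβ : ∀ c : (𝓞 F ⧸ w.asIdeal)ˣ, c ^ p ≠ β := by
    intro c hc
    obtain ⟨c₀, hc₀⟩ := Ideal.Quotient.mk_surjective (c : 𝓞 F ⧸ w.asIdeal)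
    apply hbL
    rw [mem_Lv_iff_of_notMem hζ w hpw b hb]
    refine ⟨c₀, ?_⟩
    have hmem : b₀ - c₀ ^ p ∈ w.asIdeal := by
      rw [← Ideal.Quotient.eq, map_pow, hc₀, ← Units.val_pow_eq_pow_val, hc]
      rfl
    have e : (b : F) - (c₀ : F) ^ p = ((b : F) - (b₀ : F)) + ((b₀ - c₀ ^ p : 𝓞 F) : F) := by
      push_cast
      ring
    rw [e]
    exact lt_of_le_of_lt (Valuation.map_add _ _ _)
      (max_lt hb₀ ((valuation_lt_one_iff_mem w _).mpr hmem))
  obtain ⟨i, hi, c, hc⟩ := exists_pow_mul_eq_pow p β γ hβ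
  refine ⟨i, hi, ?_⟩
  obtain ⟨c₀, hc₀⟩ := Ideal.Quotient.mk_surjective (c : 𝓞 F ⧸ w.asIdeal)
  have hyb : w.valuation F ((y * b ^ i : Fˣ) : F) = 1 := by
    rw [Units.val_mul, Units.val_pow_eq_pow_val, map_mul, map_pow, hy, hb, one_pow, one_mul]
  rw [mem_Lv_iff_of_notMem hζ w hpw _ hyb]
  refine ⟨c₀, ?_⟩
  have hmem : y₀ * b₀ ^ i - c₀ ^ p ∈ w.asIdeal := by
    rw [← Ideal.Quotient.eq, map_pow, hc₀, ← Units.val_pow_eq_pow_val, ← hc, map_mul, map_pow]
    rfl
  have e : ((y * b ^ i : Fˣ) : F) - (c₀ : F) ^ p =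
      ((y : F) * (b : F) ^ i - (y₀ : F) * (b₀ : F) ^ i) + ((y₀ * b₀ ^ i - c₀ ^ p : 𝓞 F) : F) := by
    push_cast
    ring
  rw [e]
  refine lt_of_le_of_lt (Valuation.map_add _ _ _)
    (max_lt ?_ ((valuation_lt_one_iff_mem w _).mpr hmem))
  refine valuation_mul_sub_mul_lt w hy.le ?_ hy₀ ?_
  · rw [map_pow]
    exact pow_le_one₀ zero_le' (valuation_le_one w b₀)
  · exact valuation_pow_sub_pow_lt w hb.le (valuation_le_one w b₀) hb₀ i

end Fermat.Agent.S14.Artin.SI
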