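import Fermat.Agent.S14.Artin.SI.Plan
import Fermat.Agent.S14.Artin.SI.Local

/-!
# Route A, [SI]: the choice of the auxiliary primes `w_1, …, w_m` (step (SI-1))

`F ∋ ζ_p`, `S` a finite set of primes, `a ∈ 𝓞 F` an `S`-unit which is not a `p`-th power.
By induction (each step one application of `NSSymStmt`) we build a finite set `W` of primes
outside `S`, at each of which `a` is a `p`-th power residue, such that

* (`interp`) the `S`-units interpolate arbitrary residue classes mod `p`-th powers at `W`;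
* `E_S ∩ ⋂_{w ∈ W} L_w ≤ ⟨a⟩ · F^×p`;
* `[E_S : E_S ∩ F^×p] ≤ p ^ (|W| + 1)`.
-/

set_option autoImplicit false

namespace Fermat.Agent.S14.Artin.SI

open NumberField IsDedekindDomain HeightOneSpectrum

variable {F : Type*} [Field F] [NumberField F]

/-- The `S`-units of `F`. -/
noncomputable abbrev ES (S : Finset (HeightOneSpectrum (𝓞 F))) : Subgroup Fˣ :=
  (S : Set (HeightOneSpectrum (𝓞 F))).unit F

variable (F) in
/-- The `p`-th powers in `F^×`. -/
def Pw (p : ℕ) : Subgroup Fˣ := (powMonoidHom p : Fˣ →* Fˣ).range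

theorem mem_ES {S : Finset (HeightOneSpectrum (𝓞 F))} {x : Fˣ} :
    x ∈ ES S ↔ ∀ v : HeightOneSpectrum (𝓞 F), v ∉ S → v.valuation F (x : F) = 1 := by
  change x ∈ {x : Fˣ | ∀ v, v ∉ (S : Set (HeightOneSpectrum (𝓞 F))) → v.valuation F (x : F) = 1} ↔ _
  simp

theorem mem_Pw {p : ℕ} {x : Fˣ} : x ∈ Pw F p ↔ ∃ y : Fˣ, y ^ p = x := Iff.rfl

theorem Pw_le_Lv (p : ℕ) (ζ : F) (v : HeightOneSpectrum (𝓞 F)) : Pw F p ≤ Lv F p ζ v :=
  le_sup_left

variable (p : ℕ) (ζ : F)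

/-- `H_W = E_S ∩ ⋂_{w ∈ W} L_w`. -/
noncomputable def HW (S W : Finset (HeightOneSpectrum (𝓞 F))) : Subgroup Fˣ :=
  ES S ⊓ ⨅ w ∈ W, Lv F p ζ w

variable {p ζ}

theorem mem_HW {S W : Finset (HeightOneSpectrum (𝓞 F))} {x : Fˣ} :
    x ∈ HW p ζ S W ↔ x ∈ ES S ∧ ∀ w ∈ W, x ∈ Lv F p ζ w := by
  simp [HW, Subgroup.mem_iInf]

variable (p ζ)

/-- The `S`-units interpolate arbitrary unit classes modulo `L_w` at the primes of `W`. -/
def Interp (S W : Finset (HeightOneSpectrum (𝓞 F))) : Prop :=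
  ∀ u : HeightOneSpectrum (𝓞 F) → Fˣ, (∀ w ∈ W, w.valuation F (u w : F) = 1) →
    ∃ ε ∈ ES S, ∀ w ∈ W, ε * (u w)⁻¹ ∈ Lv F p ζ w

/-- The invariants of the inductive construction. -/
structure Inv (S W : Finset (HeightOneSpectrum (𝓞 F))) (a : 𝓞 F) : Prop where
  disj : ∀ w ∈ W, w ∉ S
  spl : ∀ w ∈ W, (p : 𝓞 F) ∉ w.asIdeal ∧ a ∉ w.asIdeal ∧ ∃ c : 𝓞 F, a - c ^ p ∈ w.asIdeal
  interp : Interp p ζ S W
  nonres : ∀ w ∈ W, ∃ e ∈ ES S, e ∉ Lv F p ζ w
  idx : (HW p ζ S W).relIndex (ES S) ≤ p ^ W.card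
  idx_ne : (HW p ζ S W).relIndex (ES S) ≠ 0

variable {p ζ}

theorem inv_empty (S : Finset (HeightOneSpectrum (𝓞 F))) (a : 𝓞 F) : Inv p ζ S ∅ a where
  disj := by simp
  spl := by simp
  interp := fun u _ => ⟨1, one_mem _, by simp⟩
  nonres := by simp
  idx := by
    have : HW p ζ S ∅ = ES S := by simp [HW]
    rw [this, Subgroup.relIndex_self]
    simp
  idx_ne := by
    have : HW p ζ S ∅ = ES S := by simp [HW]
    rw [this, Subgroup.relIndex_self]
    exact one_ne_zero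

theorem HW_cons {S W : Finset (HeightOneSpectrum (𝓞 F))} {w : HeightOneSpectrum (𝓞 F)}
    (hw : w ∉ W) : HW p ζ S (Finset.cons w W hw) = Lv F p ζ w ⊓ HW p ζ S W := by
  ext x
  simp only [mem_HW, Subgroup.mem_inf, Finset.mem_cons, forall_eq_or_imp]
  tauto

variable [hp : Fact p.Prime]

/-- One step of the construction. -/
theorem Inv.step (hζ : IsPrimitiveRoot ζ p) (hNS : NSSymStmt F p)
    {S W : Finset (HeightOneSpectrum (𝓞 F))} {a : 𝓞 F} (hinv : Inv p ζ S W a)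
    (ha : ∀ x : F, x ^ p ≠ (a : F)) (au : Fˣ) (hau : (au : F) = (a : F))
    {b : Fˣ} (hbH : b ∈ HW p ζ S W) (hbA : b ∉ Subgroup.zpowers au ⊔ Pw F p) :
    ∃ (w : HeightOneSpectrum (𝓞 F)) (hw : w ∉ W), Inv p ζ S (Finset.cons w W hw) a ∧
      (HW p ζ S W).relIndex (ES S) < (HW p ζ S (Finset.cons w W hw)).relIndex (ES S) := by
  classical
  have hint : IsIntegral ℤ ζ := hζ.isIntegral hp.out.pos
  have hζ' : IsPrimitiveRoot (⟨ζ, hint⟩ : 𝓞 F) p :=
    IsPrimitiveRoot.of_map_of_injective (f := algebraMap (𝓞 F) F) hζ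
      (FaithfulSMul.algebraMap_injective (𝓞 F) F)
  have hbE : b ∈ ES S := (mem_HW.mp hbH).1
  -- integral representative of `b`
  obtain ⟨n, d, hd, hnd⟩ := IsFractionRing.div_surjective (A := 𝓞 F) (b : F)
  have hd0 : (d : F) ≠ 0 := by
    simpa using nonZeroDivisors.ne_zero hd
  obtain ⟨b', hb'eq⟩ : ∃ b' : 𝓞 F, (b' : F) = (b : F) * (d : F) ^ p := by
    refine ⟨n * d ^ (p - 1), ?_⟩
    rw [← hnd]
    push_cast
    have hpp : p = (p - 1) + 1 := (Nat.succ_pred_eq_of_pos hp.out.pos).symm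
    conv_rhs => rw [hpp, pow_succ]
    field_simp
  have hb'NS : ∀ (i : ℕ) (x : F), x ^ p * (a : F) ^ i ≠ (b' : F) := by
    intro i x hx
    apply hbA
    have hx0 : x ≠ 0 := by
      rintro rfl
      rw [zero_pow hp.out.ne_zero, zero_mul, hb'eq] at hx
      exact mul_ne_zero b.ne_zero (pow_ne_zero _ hd0) hx.symm
    rw [Subgroup.mem_sup]
    refine ⟨au ^ i, Subgroup.pow_mem _ (Subgroup.mem_zpowers _) i,
      (Units.mk0 x hx0 * (Units.mk0 (d : F) hd0)⁻¹) ^ p, ⟨_, rfl⟩, ?_⟩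
    apply Units.ext
    push_cast
    rw [hau, Units.val_mk0, Units.val_mk0]
    have : (b : F) = x ^ p * (a : F) ^ i / (d : F) ^ p := by
      rw [hx, hb'eq]
      field_simp
    rw [this, mul_pow, inv_pow, div_eq_mul_inv]
    ring
  -- the exceptional set
  have hBfin : ((fun v : HeightOneSpectrum (𝓞 F) => v.asIdeal) '' (↑S ∪ ↑W)).Finite :=
    ((S.finite_toSet.union W.finite_toSet).image _)
  obtain ⟨w, hwp, hw0, hwB, hpw, haw, hb'w, ⟨c, hc⟩, hnr⟩ :=
    hNS ⟨ζ, hint⟩ hζ' a b' ha hb'NS _ hBfin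
  let w' : HeightOneSpectrum (𝓞 F) := ⟨w, hwp, hw0⟩
  have hw'S : w' ∉ S := fun h => hwB ⟨w', Or.inl h, rfl⟩
  have hw'W : w' ∉ W := fun h => hwB ⟨w', Or.inr h, rfl⟩
  have hbw : w'.valuation F (b : F) = 1 := mem_ES.mp hbE w' hw'S
  have hb'w' : w'.valuation F (b' : F) = 1 := (valuation_eq_one_iff_notMem w').mpr hb'w
  have hdw : w'.valuation F (d : F) = 1 := by
    apply valuation_pow_eq_one hp.out.ne_zero
    rw [← map_pow]
    have := hb'w'
    rw [hb'eq, map_mul, hbw, one_mul] at this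
    exact this
  -- `b` is a non-residue at `w'`
  have hbL : b ∉ Lv F p ζ w' := by
    rw [mem_Lv_iff_of_notMem hζ w' hpw b hbw]
    rintro ⟨c₁, hc₁⟩
    apply hnr
    refine ⟨c₁ * d, ?_⟩
    rw [← valuation_lt_one_iff_mem w' (K := F)]
    have e : ((b' - (c₁ * d) ^ p : 𝓞 F) : F) = ((b : F) - (c₁ : F) ^ p) * (d : F) ^ p := by
      have e0 : ((b' - (c₁ * d) ^ p : 𝓞 F) : F) = (b' : F) - ((c₁ : F) * (d : F)) ^ p := rfl
      rw [e0, hb'eq]
      ring
    have hval : w'.valuation F (((b : F) - (c₁ : F) ^ p) * (d : F) ^ p) < 1 := by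
      rw [map_mul, map_pow, hdw, one_pow, mul_one]
      exact hc₁
    rw [← e] at hval
    exact hval
  refine ⟨w', hw'W, ?_, ?_⟩
  · refine ⟨?_, ?_, ?_, ?_, ?_, ?_⟩
    · intro v hv
      rcases Finset.mem_cons.mp hv with rfl | hv
      · exact hw'S
      · exact hinv.disj v hv
    · intro v hv
      rcases Finset.mem_cons.mp hv with rfl | hv
      · exact ⟨hpw, haw, c, hc⟩
      · exact hinv.spl v hv
    · intro u hu
      obtain ⟨ε₀, hε₀, hε₀W⟩ := hinv.interp u (fun v hv => hu v (Finset.mem_cons.mpr (Or.inr hv)))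
      have hy : w'.valuation F ((ε₀ * (u w')⁻¹ : Fˣ) : F) = 1 := by
        rw [Units.val_mul, Units.val_inv_eq_inv_val, map_mul, map_inv₀,
          mem_ES.mp hε₀ w' hw'S, hu w' (Finset.mem_cons.mpr (Or.inl rfl)), inv_one, mul_one]
      obtain ⟨i, -, hi⟩ := exists_pow_mul_mem_Lv hζ w' hpw b _ hbw hy hbL
      refine ⟨ε₀ * b ^ i, mul_mem hε₀ (pow_mem hbE i), ?_⟩
      intro v hv
      rcases Finset.mem_cons.mp hv with rfl | hv
      · have : ε₀ * b ^ i * (u w')⁻¹ = ε₀ * (u w')⁻¹ * b ^ i := by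
          rw [mul_assoc, mul_comm (b ^ i), ← mul_assoc]
        rw [this]
        exact hi
      · have : ε₀ * b ^ i * (u v)⁻¹ = ε₀ * (u v)⁻¹ * b ^ i := by
          rw [mul_assoc, mul_comm (b ^ i), ← mul_assoc]
        rw [this]
        exact mul_mem (hε₀W v hv) (pow_mem ((mem_HW.mp hbH).2 v hv) i)
    · intro v hv
      rcases Finset.mem_cons.mp hv with rfl | hv
      · exact ⟨b, hbE, hbL⟩
      · exact hinv.nonres v hv
    · rw [HW_cons hw'W, Finset.card_cons, pow_succ, mul_comm]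
      have hle : Lv F p ζ w' ⊓ HW p ζ S W ≤ HW p ζ S W := inf_le_right
      have hle' : HW p ζ S W ≤ ES S := inf_le_left
      rw [← Subgroup.relIndex_mul_relIndex _ _ _ hle hle', Subgroup.inf_relIndex_right]
      have hcov := relIndex_le_of_cover (Lv F p ζ w') (HW p ζ S W) b hbH p hp.out.pos
        (fun y hy => by
          have hyE : y ∈ ES S := (mem_HW.mp hy).1
          obtain ⟨i, hi, h⟩ := exists_pow_mul_mem_Lv hζ w' hpw b y hbw
            (mem_ES.mp hyE w' hw'S) hbL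
          exact ⟨i, hi, h⟩)
      exact Nat.mul_le_mul hcov.1 hinv.idx
    · rw [HW_cons hw'W]
      have hle : Lv F p ζ w' ⊓ HW p ζ S W ≤ HW p ζ S W := inf_le_right
      have hle' : HW p ζ S W ≤ ES S := inf_le_left
      rw [← Subgroup.relIndex_mul_relIndex _ _ _ hle hle', Subgroup.inf_relIndex_right]
      have hcov := relIndex_le_of_cover (Lv F p ζ w') (HW p ζ S W) b hbH p hp.out.pos
        (fun y hy => by
          have hyE : y ∈ ES S := (mem_HW.mp hy).1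
          obtain ⟨i, hi, h⟩ := exists_pow_mul_mem_Lv hζ w' hpw b y hbw
            (mem_ES.mp hyE w' hw'S) hbL
          exact ⟨i, hi, h⟩)
      exact mul_ne_zero hcov.2 hinv.idx_ne
  · rw [HW_cons hw'W]
    have hle : Lv F p ζ w' ⊓ HW p ζ S W ≤ HW p ζ S W := inf_le_right
    have hle' : HW p ζ S W ≤ ES S := inf_le_left
    rw [← Subgroup.relIndex_mul_relIndex _ _ _ hle hle', Subgroup.inf_relIndex_right]
    have hcov := relIndex_le_of_cover (Lv F p ζ w') (HW p ζ S W) b hbH p hp.out.pos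
      (fun y hy => by
        have hyE : y ∈ ES S := (mem_HW.mp hy).1
        obtain ⟨i, hi, h⟩ := exists_pow_mul_mem_Lv hζ w' hpw b y hbw
          (mem_ES.mp hyE w' hw'S) hbL
        exact ⟨i, hi, h⟩)
    have hne1 : (Lv F p ζ w').relIndex (HW p ζ S W) ≠ 1 := by
      rw [Ne, Subgroup.relIndex_eq_one]
      exact fun h => hbL (h hbH)
    have h2 : 2 ≤ (Lv F p ζ w').relIndex (HW p ζ S W) := by
      have := hcov.2
      omega
    have hpos : 0 < (HW p ζ S W).relIndex (ES S) := Nat.pos_of_ne_zero hinv.idx_ne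
    nlinarith

omit hp in
theorem relIndex_HW_le (S W : Finset (HeightOneSpectrum (𝓞 F)))
    (h0 : (Pw F p).relIndex (ES S) ≠ 0) :
    (HW p ζ S W).relIndex (ES S) ≤ (Pw F p).relIndex (ES S) := by
  rw [← Subgroup.inf_relIndex_right (Pw F p) (ES S)]
  refine Subgroup.relIndex_le_of_le_left ?_ (by rwa [Subgroup.inf_relIndex_right])
  intro x hx
  rw [mem_HW]
  exact ⟨hx.2, fun w _ => Pw_le_Lv p ζ w hx.1⟩

/-- **(SI-1)** the choice of `W`. -/
theorem exists_W (hζ : IsPrimitiveRoot ζ p) (hNS : NSSymStmt F p)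
    (S : Finset (HeightOneSpectrum (𝓞 F))) (a : 𝓞 F) (ha : ∀ x : F, x ^ p ≠ (a : F)) (au : Fˣ)
    (hau : (au : F) = (a : F)) (h0 : (Pw F p).relIndex (ES S) ≠ 0) :
    ∃ W : Finset (HeightOneSpectrum (𝓞 F)), Inv p ζ S W a ∧
      HW p ζ S W ≤ Subgroup.zpowers au ⊔ Pw F p := by
  have key : ∀ n : ℕ, ∀ W : Finset (HeightOneSpectrum (𝓞 F)), Inv p ζ S W a →
      (Pw F p).relIndex (ES S) - (HW p ζ S W).relIndex (ES S) ≤ n →
      ∃ W' : Finset (HeightOneSpectrum (𝓞 F)), Inv p ζ S W' a ∧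
        HW p ζ S W' ≤ Subgroup.zpowers au ⊔ Pw F p := by
    intro n
    induction n with
    | zero =>
      intro W hinv hn
      by_contra hcon
      have hnle : ¬ HW p ζ S W ≤ Subgroup.zpowers au ⊔ Pw F p := fun h => hcon ⟨W, hinv, h⟩
      obtain ⟨b, hbH, hbA⟩ := SetLike.not_le_iff_exists.mp hnle
      obtain ⟨w, hw, hinv', hlt⟩ := hinv.step hζ hNS ha au hau hbH hbA
      have := relIndex_HW_le (p := p) (ζ := ζ) S (Finset.cons w W hw) h0
      omega
    | succ n ih =>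
      intro W hinv hn
      by_cases hle : HW p ζ S W ≤ Subgroup.zpowers au ⊔ Pw F p
      · exact ⟨W, hinv, hle⟩
      · obtain ⟨b, hbH, hbA⟩ := SetLike.not_le_iff_exists.mp hle
        obtain ⟨w, hw, hinv', hlt⟩ := hinv.step hζ hNS ha au hau hbH hbA
        exact ih _ hinv' (by omega)
  exact key _ ∅ (inv_empty S a) le_rfl

/-- The count: `[E_S : E_S ∩ F^×p] ≤ p ^ (|W| + 1)`. -/
theorem relIndex_Pw_le {S W : Finset (HeightOneSpectrum (𝓞 F))} {a : 𝓞 F}
    (hinv : Inv p ζ S W a) (au : Fˣ) (hauS : au ∈ ES S)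
    (hle : HW p ζ S W ≤ Subgroup.zpowers au ⊔ Pw F p) :
    (Pw F p).relIndex (ES S) ≤ p ^ (W.card + 1) := by
  set A : Subgroup Fˣ := (Subgroup.zpowers au ⊔ Pw F p) ⊓ ES S with hA
  have hAE : A ≤ ES S := inf_le_right
  have hBeq : Pw F p ⊓ ES S = Pw F p ⊓ A := by
    ext x
    simp only [Subgroup.mem_inf, hA]
    constructor
    · rintro ⟨h1, h2⟩
      exact ⟨h1, Subgroup.mem_sup_right h1, h2⟩
    · rintro ⟨h1, -, h2⟩
      exact ⟨h1, h2⟩
  have hBA : Pw F p ⊓ A ≤ A := inf_le_right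
  have hcov := relIndex_le_of_cover (Pw F p) A au
    ⟨Subgroup.mem_sup_left (Subgroup.mem_zpowers au), hauS⟩ p hp.out.pos (by
      intro y hy
      obtain ⟨y₁, hy₁, y₂, ⟨z, rfl⟩, rfl⟩ := Subgroup.mem_sup.mp hy.1
      obtain ⟨m, rfl⟩ := Subgroup.mem_zpowers_iff.mp hy₁
      have hp0 : (p : ℤ) ≠ 0 := by exact_mod_cast hp.out.ne_zero
      have hpos : (0 : ℤ) < p := by exact_mod_cast hp.out.pos
      refine ⟨((-m) % (p : ℤ)).toNat, ?_, ?_⟩
      · have h1 := Int.emod_lt_of_pos (-m) hpos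
        have h2 := Int.emod_nonneg (-m) hp0
        omega
      · have h2 := Int.emod_nonneg (-m) hp0
        have hdvd : (p : ℤ) ∣ m + (-m) % (p : ℤ) := by
          have := Int.emod_add_mul_ediv (-m) p
          exact ⟨-((-m) / (p : ℤ)), by linarith⟩
        obtain ⟨k, hk⟩ := hdvd
        refine ⟨au ^ k * z, ?_⟩
        change (au ^ k * z) ^ p = _
        rw [mul_pow, ← zpow_natCast (au ^ k), ← zpow_mul, mul_comm k, ← hk, zpow_add,
          ← zpow_natCast au, Int.toNat_of_nonneg h2]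
        change _ = au ^ m * z ^ p * _
        rw [mul_assoc, mul_assoc, mul_comm (z ^ p)])
  have h1 : (Pw F p).relIndex (ES S) = (Pw F p).relIndex A * A.relIndex (ES S) := by
    rw [← Subgroup.inf_relIndex_right (Pw F p) (ES S), hBeq,
      ← Subgroup.relIndex_mul_relIndex _ _ _ hBA hAE, Subgroup.inf_relIndex_right]
  have h2 : A.relIndex (ES S) ≤ (HW p ζ S W).relIndex (ES S) :=
    Subgroup.relIndex_le_of_le_left (fun x hx => ⟨hle hx, (mem_HW.mp hx).1⟩) hinv.idx_ne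
  rw [h1, pow_succ, mul_comm]
  exact Nat.mul_le_mul (h2.trans hinv.idx) hcov.1

end Fermat.Agent.S14.Artin.SI
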