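import Fermat.Agent.S14.Artin.SI.Plan
import Fermat.Agent.Lib.KummerNonResidue

/-!
# Route A, [SI]: `NSSymStmt` from the landed Kummer non-residue lemma (`Lib/KummerNonResidue`)
-/

set_option autoImplicit false

namespace Fermat.Agent.S14.Artin.SI

open NumberField IsDedekindDomain HeightOneSpectrum

/-- **[NS-sym]**: for `b ∉ ⟨a⟩·F^×p` there is, outside any finite set, a prime `w ∤ p·a·b` at which
`a` is a `p`-th power residue and `b` is not. -/
theorem nsSymStmt (F : Type*) [Field F] [NumberField F] (p : ℕ) [hp : Fact p.Prime] :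
    NSSymStmt F p := by
  intro ζ hζ a b ha hb B hB
  have ha0 : (a : F) ≠ 0 := by
    intro h
    exact ha 0 (by rw [zero_pow hp.out.ne_zero, h])
  have hx : ∀ (e : Fin 1 → ℕ) (v : F), (b : F) * ∏ i, ((fun _ : Fin 1 => a) i : F) ^ e i ≠ v ^ p := by
    intro e v hv
    rw [Fin.prod_univ_one] at hv
    -- `b = (v / a ^ e) ^ p * a ^ (e * (p - 1))`
    refine hb (e 0 * (p - 1)) (v / (a : F) ^ e 0) ?_
    have hpp : p = (p - 1) + 1 := (Nat.succ_pred_eq_of_pos hp.out.pos).symm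
    have h1 : ((a : F) ^ e 0) ^ p = (a : F) ^ (e 0 * (p - 1)) * (a : F) ^ e 0 := by
      rw [← pow_mul, ← pow_add]
      congr 1
      conv_lhs => rw [hpp]
      ring
    rw [div_pow, ← hv, h1]
    field_simp
  obtain ⟨Q, hQp, hQ0, hQB, hpQ, hbQ, hnr, hres⟩ :=
    Fermat.Agent.Lib.KummerNonResidue.exists_prime_pow_residue_pattern p hζ
      (fun _ : Fin 1 => a) b hx B hB
  exact ⟨Q, hQp, hQ0, hQB, hpQ, (hres 0).1, hbQ, (hres 0).2, hnr⟩

end Fermat.Agent.S14.Artin.SI
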