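import Fermat.Agent.S14.Artin.SI.Key
import Fermat.Agent.S14.Artin.SI.NSSym
import Fermat.Agent.CFT.Global.SUnitIndex

/-!
# Route A, [SI]: the second inequality in `F^×`-language (`CoreStmt`)

Assembly of the Kummer count: from `TameFIStmt` (for the Kummer fields `F(x^(1/p))`),
`LvIndexStmt` and `ClGenStmt`, together with the landed `S`-unit index
(`CFT/Global/SUnitIndex`) and the landed Kummer non-residue lemma (via `SI/NSSym`).
-/

set_option autoImplicit false

universe u

namespace Fermat.Agent.S14.Artin.SI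

open NumberField IsDedekindDomain HeightOneSpectrum
open Fermat.Agent.CFT.Global.SUnitLattice

variable {F : Type u} [Field F] [NumberField F] {p : ℕ} [hp : Fact p.Prime]

/-- The `S`-unit index `[E_S : E_S ∩ F^×p] = p ^ (|∞| + |S|)` as a `relIndex` in `F^×`. -/
theorem relIndex_Pw_ES {ζ : F} (hζ : IsPrimitiveRoot ζ p)
    (S : Finset (HeightOneSpectrum (𝓞 F))) :
    (Pw F p).relIndex (ES S) = p ^ (Fintype.card (InfinitePlace F) + S.card) := by
  rw [← card_pl S, ← index_range_pow_sunits_of_isPrimitiveRoot S p hp.out hζ]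
  unfold Subgroup.relIndex
  congr 1
  ext ⟨y, hy⟩
  rw [Subgroup.mem_subgroupOf]
  constructor
  · rintro ⟨z, hz⟩
    have hz' : z ^ p = y := hz
    have hzE : z ∈ ES S := by
      rw [mem_ES] at hy ⊢
      intro v hv
      apply valuation_pow_eq_one hp.out.ne_zero
      rw [← map_pow, ← Units.val_pow_eq_pow_val, hz']
      exact hy v hv
    exact ⟨⟨z, hzE⟩, Subtype.ext hz'⟩
  · rintro ⟨z, hz⟩
    exact ⟨z.1, congrArg Subtype.val hz⟩

/-- A number field containing a primitive `p`-th root of unity, `p` odd, is totally complex. -/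
theorem two_mul_card_infinitePlace {ζ : F} (hζ : IsPrimitiveRoot ζ p) (hp2 : p ≠ 2) :
    2 * Fintype.card (InfinitePlace F) = Module.finrank ℚ F := by
  have h2lt : 2 < p := by
    have := hp.out.two_le
    omega
  have hreal : InfinitePlace.nrRealPlaces F = 0 :=
    InfinitePlace.IsPrimitiveRoot.nrRealPlaces_eq_zero_of_two_lt h2lt hζ
  have h1 := InfinitePlace.card_add_two_mul_card_eq_rank F
  have h2 := InfinitePlace.card_eq_nrRealPlaces_add_nrComplexPlaces F
  omega

/-- **[Core]** the second inequality in `F^×`-language, from the leaves. -/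
theorem coreStmt_of (hp2 : p ≠ 2)
    (hTFI : ∀ (N : Type u) [Field N] [NumberField N] [Algebra F N] [IsGalois F N],
      TameFIStmt F N p)
    (hLv : LvIndexStmt F p) (hCl : ClGenStmt F) : CoreStmt F p := by
  classical
  intro ζ hζ a ha B
  have ha0 : (a : F) ≠ 0 := by
    intro h
    exact ha 0 (by rw [zero_pow hp.out.ne_zero, h])
  have ha0' : a ≠ 0 := by
    rintro rfl
    exact ha0 rfl
  have hp0' : (p : 𝓞 F) ≠ 0 := by exact_mod_cast hp.out.ne_zero
  -- the set `S`
  have hfinp : {v : HeightOneSpectrum (𝓞 F) | v.asIdeal ∣ Ideal.span {(p : 𝓞 F)}}.Finite :=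
    Ideal.finite_factors (by simpa using hp0')
  have hfina : {v : HeightOneSpectrum (𝓞 F) | v.asIdeal ∣ Ideal.span {a}}.Finite :=
    Ideal.finite_factors (by simpa using ha0')
  obtain ⟨S, hBS, hcl⟩ := hCl (B ∪ hfinp.toFinset ∪ hfina.toFinset)
  have hpS : ∀ v : HeightOneSpectrum (𝓞 F), (p : 𝓞 F) ∈ v.asIdeal → v ∈ S := by
    intro v hv
    apply hBS
    refine Finset.mem_union_left _ (Finset.mem_union_right _ ?_)
    rw [Set.Finite.mem_toFinset]
    exact Ideal.dvd_span_singleton.mpr hv
  have haS : ∀ v : HeightOneSpectrum (𝓞 F), a ∈ v.asIdeal → v ∈ S := by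
    intro v hv
    apply hBS
    refine Finset.mem_union_right _ ?_
    rw [Set.Finite.mem_toFinset]
    exact Ideal.dvd_span_singleton.mpr hv
  have hBS' : B ⊆ S := fun v hv =>
    hBS (Finset.mem_union_left _ (Finset.mem_union_left _ hv))
  -- `a` as an `S`-unit
  let au : Fˣ := Units.mk0 (a : F) ha0
  have hauS : au ∈ ES S := by
    rw [mem_ES]
    intro v hv
    exact (valuation_eq_one_iff_notMem v).mpr (fun h => hv (haS v h))
  -- the set `W`
  have hidxS := relIndex_Pw_ES hζ S
  have h0 : (Pw F p).relIndex (ES S) ≠ 0 := by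
    rw [hidxS]
    exact pow_ne_zero _ hp.out.ne_zero
  obtain ⟨W, hinv, hle⟩ := exists_W hζ (nsSymStmt F p) S a ha au rfl h0
  have hcount := relIndex_Pw_le hinv au hauS hle
  rw [hidxS] at hcount
  have hcount' : Fintype.card (InfinitePlace F) + S.card ≤ W.card + 1 :=
    (Nat.pow_le_pow_iff_right hp.out.one_lt).mp hcount
  have hdisj : Disjoint S W := by
    rw [Finset.disjoint_left]
    exact fun v hvS hvW => hinv.disj v hvW hvS
  refine ⟨S, W, hBS', hdisj, hcl, hinv.spl, ?_⟩
  -- the count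
  have hcoe : ((S : Set (HeightOneSpectrum (𝓞 F))) ∪ (W : Set (HeightOneSpectrum (𝓞 F)))) =
      ((S ∪ W : Finset (HeightOneSpectrum (𝓞 F))) : Set (HeightOneSpectrum (𝓞 F))) := by
    rw [Finset.coe_union]
  set E : Subgroup Fˣ :=
    ((S : Set (HeightOneSpectrum (𝓞 F))) ∪ (W : Set (HeightOneSpectrum (𝓞 F)))).unit F with hE
  set L : Subgroup Fˣ := ⨅ v ∈ S, Lv F p ζ v with hL
  obtain ⟨hL0, hLle⟩ := hLv ζ hζ S
  have hidxE : (Pw F p).relIndex E =
      p ^ (Fintype.card (InfinitePlace F) + (S.card + W.card)) := by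
    have := relIndex_Pw_ES hζ (S ∪ W)
    rw [Finset.card_union_of_disjoint hdisj] at this
    rw [← this, hE, hcoe]
  have hkey : L ⊓ E ≤ Pw F p ⊓ E := by
    intro x hx
    refine ⟨key_lemma hζ hTFI hinv hcl hpS x hx.2 ?_, hx.2⟩
    intro v hv
    have hxL : x ∈ ⨅ v ∈ S, Lv F p ζ v := hx.1
    simp only [Subgroup.mem_iInf] at hxL
    exact hxL v hv
  have hdvd : (Pw F p).relIndex E ∣ L.relIndex E := by
    have := Subgroup.relIndex_dvd_of_le_left E hkey
    rwa [Subgroup.inf_relIndex_right, Subgroup.inf_relIndex_right] at this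
  have hsup : L.relIndex (E ⊔ L) = L.relIndex E := Subgroup.relIndex_sup_right E L
  have hmul : L.relIndex (E ⊔ L) * (E ⊔ L).index = L.index :=
    Subgroup.relIndex_mul_index le_sup_right
  have hD0 : (E ⊔ L).index ≠ 0 := by
    intro h
    rw [h, mul_zero] at hmul
    exact hL0 hmul.symm
  refine ⟨hD0, ?_⟩
  have hrel0 : L.relIndex E ≠ 0 := by
    intro h
    rw [hsup, h, zero_mul] at hmul
    exact hL0 hmul.symm
  have hle1 : p ^ (Fintype.card (InfinitePlace F) + (S.card + W.card)) ≤ L.relIndex E := by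
    rw [← hidxE]
    exact Nat.le_of_dvd (Nat.pos_of_ne_zero hrel0) hdvd
  have htc := two_mul_card_infinitePlace hζ hp2
  have hbound : (E ⊔ L).index * p ^ (Fintype.card (InfinitePlace F) + (S.card + W.card)) ≤
      p * p ^ (Fintype.card (InfinitePlace F) + (S.card + W.card)) := by
    calc (E ⊔ L).index * p ^ (Fintype.card (InfinitePlace F) + (S.card + W.card))
        ≤ (E ⊔ L).index * L.relIndex E := Nat.mul_le_mul_left _ hle1
      _ = L.index := by rw [← hmul, hsup, mul_comm]
      _ ≤ p ^ (2 * S.card + Module.finrank ℚ F) := hLle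
      _ ≤ p ^ (Fintype.card (InfinitePlace F) + (S.card + W.card) + 1) :=
          Nat.pow_le_pow_right hp.out.pos (by omega)
      _ = p * p ^ (Fintype.card (InfinitePlace F) + (S.card + W.card)) := by
          rw [pow_succ, mul_comm]
  exact Nat.le_of_mul_le_mul_right hbound (pow_pos hp.out.pos _)

end Fermat.Agent.S14.Artin.SI
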