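import Fermat.Agent.S14.Artin.SI.Choice

/-!
# Route A, [SI]: the key lemma (step (SI-2))

`x ∈ E_{S ∪ W}` lying in `L_v` for every `v ∈ S` is a `p`-th power, provided `𝓞_{F,S}` is a PID,
`S ⊇ {v ∣ p}`, and `W` satisfies the invariants of `SI/Choice.lean` (interpolation).
Input: `TameFIStmt` for the Kummer field `F(x^(1/p))`.
-/

set_option autoImplicit false

universe u

namespace Fermat.Agent.S14.Artin.SI

open NumberField IsDedekindDomain HeightOneSpectrum Polynomial

variable {F : Type u} [Field F] [NumberField F]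

theorem toAdd_valuationOfNeZero_of_eq_one {w : HeightOneSpectrum (𝓞 F)} {y : Fˣ}
    (h : w.valuation F (y : F) = 1) : Multiplicative.toAdd (w.valuationOfNeZero y) = 0 := by
  have h1 : ((w.valuationOfNeZero y : Multiplicative ℤ) : WithZero (Multiplicative ℤ)) = 1 := by
    rw [valuationOfNeZero_eq, h]
  have h2 : w.valuationOfNeZero y = 1 := by
    rwa [← WithZero.coe_one, WithZero.coe_inj] at h1
  rw [h2]
  rfl

theorem toAdd_valuationOfNeZero_of_eq_exp {w : HeightOneSpectrum (𝓞 F)} {y : Fˣ} (n : ℤ)
    (h : w.valuation F (y : F) = WithZero.exp n) :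
    Multiplicative.toAdd (w.valuationOfNeZero y) = n := by
  have h1 : ((w.valuationOfNeZero y : Multiplicative ℤ) : WithZero (Multiplicative ℤ)) =
      ((Multiplicative.ofAdd n : Multiplicative ℤ) : WithZero (Multiplicative ℤ)) := by
    rw [valuationOfNeZero_eq, h]
    rfl
  rw [WithZero.coe_inj.mp h1]
  rfl

theorem clGen_mono {S S' : Finset (HeightOneSpectrum (𝓞 F))} (h : ClGen F S) (hSS' : S ⊆ S') :
    ClGen F S' := by
  intro v hv
  obtain ⟨x, hx, hx'⟩ := h v (fun hvS => hv (hSS' hvS))
  exact ⟨x, hx, fun w hw hwv => hx' w (fun hwS => hw (hSS' hwS)) hwv⟩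

variable {p : ℕ} [hp : Fact p.Prime] {ζ : F}

/-- **(SI-2)** the key lemma. -/
theorem key_lemma (hζ : IsPrimitiveRoot ζ p)
    (hTFI : ∀ (N : Type u) [Field N] [NumberField N] [Algebra F N] [IsGalois F N],
      TameFIStmt F N p)
    {S W : Finset (HeightOneSpectrum (𝓞 F))} {a : 𝓞 F} (hinv : Inv p ζ S W a) (hcl : ClGen F S)
    (hpS : ∀ v : HeightOneSpectrum (𝓞 F), (p : 𝓞 F) ∈ v.asIdeal → v ∈ S)
    (x : Fˣ)
    (hxE : x ∈ ((S : Set (HeightOneSpectrum (𝓞 F))) ∪ (W : Set (HeightOneSpectrum (𝓞 F)))).unit F)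
    (hxL : ∀ v ∈ S, x ∈ Lv F p ζ v) : x ∈ Pw F p := by
  classical
  by_contra hxP
  have hx' : ∀ y : F, y ^ p ≠ (x : F) := by
    intro y hy
    have hy0 : y ≠ 0 := by
      rintro rfl
      rw [zero_pow hp.out.ne_zero] at hy
      exact x.ne_zero hy.symm
    exact hxP ⟨Units.mk0 y hy0, Units.ext (by simpa using hy)⟩
  -- the Kummer field
  let N : Type u := (X ^ p - C (x : F) : F[X]).SplittingField
  haveI : NumberField N := NumberField.of_module_finite F N
  haveI : NeZero p := ⟨hp.out.ne_zero⟩
  have hsep : (X ^ p - C (x : F) : F[X]).Separable :=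
    separable_X_pow_sub_C (x : F) (by exact_mod_cast hp.out.ne_zero) x.ne_zero
  haveI : IsGalois F N := IsGalois.of_separable_splitting_field hsep
  have hdeg : Module.finrank F N = p :=
    finrank_of_isSplittingField_X_pow_sub_C ⟨ζ, (mem_primitiveRoots hp.out.pos).mpr hζ⟩
      (X_pow_sub_C_irreducible_of_prime hp.out hx') N
  let β : N := rootOfSplitsXPowSubC hp.out.pos (x : F) N
  have hβ : β ^ p = algebraMap F N (x : F) := rootOfSplitsXPowSubC_pow (x : F) N
  -- the sets
  let T : Finset (HeightOneSpectrum (𝓞 F)) := W.filter (fun w => x ∉ Lv F p ζ w)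
  have hTW : ∀ w ∈ T, w ∈ W := fun w hw => (Finset.mem_filter.mp hw).1
  have hTL : ∀ w ∈ T, x ∉ Lv F p ζ w := fun w hw => (Finset.mem_filter.mp hw).2
  have hxE' : x ∈ ((S ∪ W : Finset (HeightOneSpectrum (𝓞 F))) :
      Set (HeightOneSpectrum (𝓞 F))).unit F := by
    rw [Finset.coe_union]
    exact hxE
  have hES_le : ES S ≤ ES (S ∪ W) := by
    intro y hy
    rw [mem_ES] at hy ⊢
    intro v hv
    exact hy v (fun h => hv (Finset.mem_union_left _ h))
  refine hTFI N hdeg ζ hζ x hx' β hβ (S ∪ W) T (clGen_mono hcl Finset.subset_union_left)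
    (fun w hw => Finset.mem_union_right _ (hTW w hw))
    (fun v hv => ⟨Finset.mem_union_left _ (hpS v hv),
      fun hvT => (hinv.spl v (hTW v hvT)).1 hv⟩)
    hxE' ?_ ?_
  · intro v hv hvT
    rcases Finset.mem_union.mp hv with hvS | hvW
    · exact hxL v hvS
    · by_contra hcon
      exact hvT (Finset.mem_filter.mpr ⟨hvW, hcon⟩)
  · intro w hwT
    have hwW := hTW w hwT
    have hwS : w ∉ S := hinv.disj w hwW
    set c : ℤ := Multiplicative.toAdd (w.valuationOfNeZero x) with hc
    by_cases hpc : (p : ℤ) ∣ c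
    · -- "inert" case: `y = π · ε`
      obtain ⟨k, hk⟩ := hpc
      obtain ⟨π, hπ, hπ'⟩ := hcl w hwS
      let u : HeightOneSpectrum (𝓞 F) → Fˣ := fun v => if v = w then 1 else π⁻¹
      have hu : ∀ v ∈ W, v.valuation F (u v : F) = 1 := by
        intro v hv
        by_cases hvw : v = w
        · simp [u, hvw]
        · simp only [u, if_neg hvw, Units.val_inv_eq_inv_val, map_inv₀]
          rw [hπ' v (hinv.disj v hv) hvw, inv_one]
      obtain ⟨ε, hεE, hε⟩ := hinv.interp u hu
      have hyw : w.valuation F ((π * ε : Fˣ) : F) = WithZero.exp (-1 : ℤ) := by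
        rw [Units.val_mul, map_mul, hπ, mem_ES.mp hεE w hwS, mul_one]
      refine ⟨π * ε, ?_, ?_, ?_⟩
      · rw [mem_ES]
        intro v hv
        have hvS : v ∉ S := fun h => hv (Finset.mem_union_left _ h)
        have hvw : v ≠ w := fun h => hv (Finset.mem_union_right _ (h ▸ hwW))
        rw [Units.val_mul, map_mul, hπ' v hvS hvw, mem_ES.mp hεE v hvS, mul_one]
      · intro hmem
        apply hTL w hwT
        have e : tameElt w x (π * ε) = ((π * ε) ^ k) ^ p * x := by
          unfold tameElt
          rw [← hc, hk, toAdd_valuationOfNeZero_of_eq_exp (-1) hyw, neg_neg, zpow_one,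
            mul_comm (p : ℤ) k, zpow_mul, zpow_natCast]
        rw [e] at hmem
        have := mul_mem (inv_mem (pow_mem_Lv p ζ w ((π * ε) ^ k))) hmem
        rwa [inv_mul_cancel_left] at this
      · intro w' hw'T hw'w
        have hw'W := hTW w' hw'T
        have hw'S : w' ∉ S := hinv.disj w' hw'W
        have hyw' : w'.valuation F ((π * ε : Fˣ) : F) = 1 := by
          rw [Units.val_mul, map_mul, hπ' w' hw'S hw'w, mem_ES.mp hεE w' hw'S, mul_one]
        have e : tameElt w' x (π * ε) =
            (π * ε) ^ (Multiplicative.toAdd (w'.valuationOfNeZero x)) := by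
          unfold tameElt
          rw [toAdd_valuationOfNeZero_of_eq_one hyw', neg_zero, zpow_zero, mul_one]
        rw [e]
        refine zpow_mem ?_ _
        have := hε w' hw'W
        simp only [u, if_neg hw'w, inv_inv] at this
        rwa [mul_comm]
    · -- "ramified" case: `y = ε`
      obtain ⟨e₀, he₀E, he₀L⟩ := hinv.nonres w hwW
      let u : HeightOneSpectrum (𝓞 F) → Fˣ := fun v => if v = w then e₀ else 1
      have hu : ∀ v ∈ W, v.valuation F (u v : F) = 1 := by
        intro v hv
        by_cases hvw : v = w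
        · simp only [u, if_pos hvw]
          rw [hvw]
          exact mem_ES.mp he₀E w hwS
        · simp [u, hvw]
      obtain ⟨ε, hεE, hε⟩ := hinv.interp u hu
      have hεw : ε ∉ Lv F p ζ w := by
        intro h
        have h1 := hε w hwW
        simp only [u, if_pos rfl] at h1
        apply he₀L
        have := mul_mem (inv_mem h1) h
        rwa [mul_inv_rev, inv_inv, mul_assoc, inv_mul_cancel, mul_one] at this
      refine ⟨ε, hES_le hεE, ?_, ?_⟩
      · intro hmem
        have e : tameElt w x ε = ε ^ c := by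
          unfold tameElt
          rw [toAdd_valuationOfNeZero_of_eq_one (mem_ES.mp hεE w hwS), neg_zero, zpow_zero,
            mul_one]
        rw [e] at hmem
        apply hεw
        have hcop : IsCoprime c (p : ℤ) := by
          rw [isCoprime_comm]
          exact (Nat.prime_iff_prime_int.mp hp.out).coprime_iff_not_dvd.mpr hpc
        obtain ⟨m, n, hmn⟩ := hcop
        have : ε = (ε ^ c) ^ m * (ε ^ p) ^ n := by
          rw [← zpow_mul, ← zpow_natCast ε p, ← zpow_mul, ← zpow_add, mul_comm c m,
            mul_comm (p : ℤ) n, hmn, zpow_one]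
        rw [this]
        exact mul_mem (zpow_mem hmem _) (zpow_mem (pow_mem_Lv p ζ w ε) _)
      · intro w' hw'T hw'w
        have hw'W := hTW w' hw'T
        have hw'S : w' ∉ S := hinv.disj w' hw'W
        have e : tameElt w' x ε = ε ^ (Multiplicative.toAdd (w'.valuationOfNeZero x)) := by
          unfold tameElt
          rw [toAdd_valuationOfNeZero_of_eq_one (mem_ES.mp hεE w' hw'S), neg_zero, zpow_zero,
            mul_one]
        rw [e]
        refine zpow_mem ?_ _
        have := hε w' hw'W
        simpa only [u, if_neg hw'w, inv_one, mul_one] using this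

end Fermat.Agent.S14.Artin.SI
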