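import Fermat.Agent.S14.Artin.SI.Defs

/-!
# Route A, [SI] second inequality: leaf contracts (Props only)

Each leaf of the Kummer count is a named `Prop`; the assembly (`SI/Core.lean`) proves the
`F^×`-form of the second inequality from them.  Nothing here is proved.
-/

set_option autoImplicit false

namespace Fermat.Agent.S14.Artin.SI

open NumberField IsDedekindDomain HeightOneSpectrum

/-- **[NS-sym]** `F ∋ ζ_p`, `a b ∈ 𝓞 F`, `a` not a `p`-th power, `b ∉ ⟨a⟩·F^×p`: outside any finite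
set there is a prime `w ∤ p·a·b` at which `a` is a `p`-th power residue and `b` is not. -/
def NSSymStmt (F : Type*) [Field F] [NumberField F] (p : ℕ) : Prop :=
  ∀ (ζ : 𝓞 F), IsPrimitiveRoot ζ p → ∀ (a b : 𝓞 F), (∀ x : F, x ^ p ≠ (a : F)) →
    (∀ (i : ℕ) (x : F), x ^ p * (a : F) ^ i ≠ (b : F)) →
    ∀ B : Set (Ideal (𝓞 F)), B.Finite →
      ∃ w : Ideal (𝓞 F), w.IsPrime ∧ w ≠ ⊥ ∧ w ∉ B ∧ (p : 𝓞 F) ∉ w ∧ a ∉ w ∧ b ∉ w ∧
        (∃ c : 𝓞 F, a - c ^ p ∈ w) ∧ ¬ ∃ c : 𝓞 F, b - c ^ p ∈ w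

/-- **[TAME]** `N = F(x^(1/p))` cyclic of degree `p` (odd), `w ∤ p` a prime of `F` with exactly one
prime of `N` above it: for every `z ∈ N^×`, with `y = N_{N/F}(z)`, `c = ord_w x`, `n = ord_w y`,
the `w`-unit `y ^ c * x ^ (-n)` is a `p`-th power residue mod `w` (the tame symbol `(y, x)_w`
is trivial on norms). -/
def TameNormStmt (F N : Type*) [Field F] [NumberField F] [Field N] [NumberField N] [Algebra F N]
    (p : ℕ) : Prop :=
  ∀ (ζ : F), IsPrimitiveRoot ζ p → ∀ (x : F), (∀ y : F, y ^ p ≠ x) →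
    ∀ (β : N), β ^ p = algebraMap F N x →
    ∀ (w : HeightOneSpectrum (𝓞 F)), (p : 𝓞 F) ∉ w.asIdeal →
    ∀ (P : Ideal (𝓞 N)), P.IsPrime → P.under (𝓞 F) = w.asIdeal →
      (∀ Q : Ideal (𝓞 N), Q.IsPrime → Q.under (𝓞 F) = w.asIdeal → Q = P) →
    ∀ (z : N), z ≠ 0 → ∀ (c n : ℤ), w.valuation F x = WithZero.exp (-c) →
      w.valuation F (Algebra.norm F z) = WithZero.exp (-n) →
      ∃ d : F, w.valuation F ((Algebra.norm F z) ^ c * x ^ (-n) - d ^ p) < 1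

/-- **[LV]** the local index count, summed over a finite set of primes:
`[F^× : ⋂_{v ∈ S} L_v] ≤ p^(2|S| + [F:ℚ])` (and the index is finite). -/
def LvIndexStmt (F : Type*) [Field F] [NumberField F] (p : ℕ) : Prop :=
  ∀ (ζ : F), IsPrimitiveRoot ζ p → ∀ S : Finset (HeightOneSpectrum (𝓞 F)),
    (⨅ v ∈ S, Lv F p ζ v).index ≠ 0 ∧
      (⨅ v ∈ S, Lv F p ζ v).index ≤ p ^ (2 * S.card + Module.finrank ℚ F)

/-- **[ClGen]** every finite set of primes is contained in a finite set `S` with `𝓞_{F,S}` a PID. -/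
def ClGenStmt (F : Type*) [Field F] [NumberField F] : Prop :=
  ∀ B : Finset (HeightOneSpectrum (𝓞 F)), ∃ S : Finset (HeightOneSpectrum (𝓞 F)),
    B ⊆ S ∧ ClGen F S

/-- **[H]** (consumer form of the unit-norm index `[E_{F,Σ} : N(E_{N,Σ})] = p^(t-1)`):
`N/F` Galois of degree `p`, unramified outside `Sg`, `𝓞_{F,Sg}` a PID, `T ⊆ Sg` containing every
prime of `Sg` with exactly one prime of `N` above it.  Then `T ≠ ∅`, and no subgroup `D` containing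
the norms of the `Sg`-units of `N` has index divisible by `p ^ |T|` in the `Sg`-units of `F`. -/
def HStmt (F N : Type*) [Field F] [NumberField F] [Field N] [NumberField N] [Algebra F N]
    (p : ℕ) : Prop :=
  ∀ (Sg : Finset (HeightOneSpectrum (𝓞 F))), ClGen F Sg →
    (∀ (P : Ideal (𝓞 N)) [P.IsPrime], P ≠ ⊥ → (∀ v ∈ Sg, P.under (𝓞 F) ≠ v.asIdeal) →
      Algebra.IsUnramifiedAt (𝓞 F) P) →
    ∀ (T : Finset (HeightOneSpectrum (𝓞 F))), T ⊆ Sg →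
      (∀ v ∈ Sg, v ∉ T → ∃ P Q : Ideal (𝓞 N), P.IsPrime ∧ Q.IsPrime ∧ P ≠ Q ∧
        P.under (𝓞 F) = v.asIdeal ∧ Q.under (𝓞 F) = v.asIdeal) →
    ∀ (D : Subgroup Fˣ),
      (∀ z : Nˣ, (∀ P : HeightOneSpectrum (𝓞 N), (∀ v ∈ Sg, P.asIdeal.under (𝓞 F) ≠ v.asIdeal) →
        P.valuation N (z : N) = 1) → Units.map (Algebra.norm F : N →* F) z ∈ D) →
      T.card ≠ 0 ∧
        ¬ (p ^ T.card ∣ (D ⊓ (Sg : Set (HeightOneSpectrum (𝓞 F))).unit F).relIndex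
          ((Sg : Set (HeightOneSpectrum (𝓞 F))).unit F))

/-- The tame element `θ_w(y) = y ^ (-log|x|_w) * x ^ (log|y|_w)` (a `w`-unit): up to inversion,
`y ^ (ord_w x) * x ^ (-ord_w y)`.  Its class in `F^× / L_w` is the tame symbol `(y, x)_w`. -/
noncomputable def tameElt {F : Type*} [Field F] [NumberField F] (w : HeightOneSpectrum (𝓞 F))
    (x y : Fˣ) : Fˣ :=
  y ^ (Multiplicative.toAdd (w.valuationOfNeZero x)) *
    x ^ (-(Multiplicative.toAdd (w.valuationOfNeZero y)))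

/-- **[TameFI]** (first inequality with a tame modulus, contradiction form; packages [H], the
Kummer local leaves and [TAME]).  `N = F(x^(1/p))` cyclic of degree `p`, `x` an `Sg`-unit,
`𝓞_{F,Sg}` a PID, `Sg ⊇ {v ∣ p}`, `T ⊆ Sg` prime to `p`, `x ∈ L_v` for `v ∈ Sg ∖ T`.
Then there is NO "dual family" `(y_w)_{w ∈ T}` of `Sg`-units with
`θ_w(y_w) ∉ L_w` and `θ_w'(y_w) ∈ L_w'` for `w' ≠ w`. -/
def TameFIStmt (F N : Type*) [Field F] [NumberField F] [Field N] [NumberField N] [Algebra F N]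
    [IsGalois F N] (p : ℕ) : Prop :=
  Module.finrank F N = p → ∀ (ζ : F), IsPrimitiveRoot ζ p → ∀ (x : Fˣ), (∀ y : F, y ^ p ≠ (x : F)) →
    ∀ (β : N), β ^ p = algebraMap F N (x : F) →
    ∀ (Sg T : Finset (HeightOneSpectrum (𝓞 F))), ClGen F Sg → T ⊆ Sg →
      (∀ v : HeightOneSpectrum (𝓞 F), (p : 𝓞 F) ∈ v.asIdeal → v ∈ Sg ∧ v ∉ T) →
      x ∈ (Sg : Set (HeightOneSpectrum (𝓞 F))).unit F →
      (∀ v ∈ Sg, v ∉ T → x ∈ Lv F p ζ v) →
      ¬ (∀ w ∈ T, ∃ y ∈ (Sg : Set (HeightOneSpectrum (𝓞 F))).unit F,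
          tameElt w x y ∉ Lv F p ζ w ∧ ∀ w' ∈ T, w' ≠ w → tameElt w' x y ∈ Lv F p ζ w')

/-- **[Core]** the second inequality in `F^×`-language: for `a ∈ 𝓞 F` not a `p`-th power and any
finite set `B` of primes there are disjoint finite sets `S ⊇ B` (with `𝓞_{F,S}` a PID) and `W`
(primes `w ∤ p·a` at which `a` is a `p`-th power residue, i.e. split in `F(a^(1/p))`) such that
`E_{S ∪ W} · ⋂_{v ∈ S} L_v` has index at most `p` in `F^×`. -/
def CoreStmt (F : Type*) [Field F] [NumberField F] (p : ℕ) : Prop :=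
  ∀ (ζ : F), IsPrimitiveRoot ζ p → ∀ (a : 𝓞 F), (∀ x : F, x ^ p ≠ (a : F)) →
    ∀ B : Finset (HeightOneSpectrum (𝓞 F)),
      ∃ S W : Finset (HeightOneSpectrum (𝓞 F)), B ⊆ S ∧ Disjoint S W ∧ ClGen F S ∧
        (∀ w ∈ W, (p : 𝓞 F) ∉ w.asIdeal ∧ a ∉ w.asIdeal ∧ ∃ c : 𝓞 F, a - c ^ p ∈ w.asIdeal) ∧
        (((S : Set (HeightOneSpectrum (𝓞 F))) ∪ (W : Set (HeightOneSpectrum (𝓞 F)))).unit F ⊔
          ⨅ v ∈ S, Lv F p ζ v).index ≠ 0 ∧
        (((S : Set (HeightOneSpectrum (𝓞 F))) ∪ (W : Set (HeightOneSpectrum (𝓞 F)))).unit F ⊔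
          ⨅ v ∈ S, Lv F p ζ v).index ≤ p

end Fermat.Agent.S14.Artin.SI
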